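import Fermat.Agent.S41.H952.TorsCore

/-!
# Row HARD, cell HECKE, leaf IA-FREE: Mathlib-level pieces (helper916)

* `pow_twelve_eq_one_h916` : an element of finite order of `SL(2,ℤ)` satisfies `g ^ 12 = 1`
  (trace bound + Cayley–Hamilton, from `S41.H952.TorsCore`);
* `ell_of_card_h916` : (Ell) for `5 ≤ p`: a homomorphism from a subgroup of `SL(2,ℤ)` to a finite
  group of `p`-power order kills the elements of finite order;
* `existsUnique_of_linearIndependent_h916` : a linearly independent spanning family indexed by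
  `D × Fin n`, re-indexed along a bijection `ε : E → D`, gives unique coefficients
  `c : Fin n → E → 𝒪`.
-/

set_option autoImplicit false

open scoped MatrixGroups

namespace Fermat.Agent.S38.H916

open Matrix Fermat.Agent.S41.H952

/-- `g² = -1` if `tr g = 0`. -/
theorem sq_of_tr2_zero_h916 (g : SL(2, ℤ)) (ht : tr2 g = 0) : g ^ 2 = -1 := by
  apply Subtype.ext
  have h := cayley g
  rw [ht, zero_smul, zero_sub] at h
  rw [pow_two, Matrix.SpecialLinearGroup.coe_mul, h]
  simp [Matrix.SpecialLinearGroup.coe_neg]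

/-- `g³ = -1` if `tr g = 1`. -/
theorem cube_of_tr2_one_h916 (g : SL(2, ℤ)) (ht : tr2 g = 1) : g ^ 3 = -1 := by
  apply Subtype.ext
  have h := cayley g
  rw [ht, one_smul] at h
  have h3 : (g ^ 3).1 = g.1 * (g.1 * g.1) := by
    rw [pow_succ', pow_two, Matrix.SpecialLinearGroup.coe_mul, Matrix.SpecialLinearGroup.coe_mul]
  rw [h3, h, Matrix.mul_sub, Matrix.mul_one, h]
  simp [Matrix.SpecialLinearGroup.coe_neg]

/-- `g³ = 1` if `tr g = -1`. -/
theorem cube_of_tr2_neg_one_h916 (g : SL(2, ℤ)) (ht : tr2 g = -1) : g ^ 3 = 1 := by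
  apply Subtype.ext
  have h := cayley g
  rw [ht] at h
  have h3 : (g ^ 3).1 = g.1 * (g.1 * g.1) := by
    rw [pow_succ', pow_two, Matrix.SpecialLinearGroup.coe_mul, Matrix.SpecialLinearGroup.coe_mul]
  rw [h3, h, Matrix.mul_sub, Matrix.mul_one, Matrix.mul_smul, h]
  simp only [Matrix.SpecialLinearGroup.coe_one]
  module

/-- **TORS.**  An element of finite order of `SL(2,ℤ)` satisfies `g ^ 12 = 1`. -/
theorem pow_twelve_eq_one_h916 (g : SL(2, ℤ)) (hg : IsOfFinOrder g) : g ^ 12 = 1 := by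
  have hb := abs_tr2_le_two hg
  rw [abs_le] at hb
  have hcases : tr2 g = 2 ∨ tr2 g = -2 ∨ tr2 g = 0 ∨ tr2 g = 1 ∨ tr2 g = -1 := by omega
  have h3 : ((-1 : SL(2, ℤ))) ^ 2 = 1 := by
    rw [pow_two]
    simp
  rcases hcases with ht | ht | ht | ht | ht
  · rw [eq_one_of_tr2_eq_two hg ht, one_pow]
  · have h1 : -g = 1 := eq_one_of_tr2_eq_two (isOfFinOrder_neg hg) (by rw [tr2_neg, ht]; norm_num)
    have h2 : g = -1 := by rw [← h1, neg_neg]
    rw [h2, show (12 : ℕ) = 2 * 6 from rfl, pow_mul, h3, one_pow]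
  · have h2 := sq_of_tr2_zero_h916 g ht
    rw [show (12 : ℕ) = 2 * (2 * 3) from rfl, pow_mul, h2, pow_mul, h3, one_pow]
  · have h2 := cube_of_tr2_one_h916 g ht
    rw [show (12 : ℕ) = 3 * (2 * 2) from rfl, pow_mul, h2, pow_mul, h3, one_pow]
  · have h2 := cube_of_tr2_neg_one_h916 g ht
    rw [show (12 : ℕ) = 3 * 4 from rfl, pow_mul, h2, one_pow]

/-- **(Ell) for `5 ≤ p`.**  A homomorphism from a subgroup of `SL(2,ℤ)` to a finite group of
`p`-power order is trivial on the elements of finite order. -/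
theorem ell_of_card_h916 {Γ : Subgroup SL(2, ℤ)} {D : Type} [Group D] [Finite D] (κ : Γ →* D)
    {p : ℕ} (hp : p.Prime) (hp5 : 5 ≤ p) {a : ℕ} (hcard : Nat.card D = p ^ a)
    (g : Γ) (hg : IsOfFinOrder g) : κ g = 1 := by
  have hg' : IsOfFinOrder (g : SL(2, ℤ)) := by
    have := MonoidHom.isOfFinOrder Γ.subtype hg
    exact this
  have h12 : g ^ 12 = 1 := by
    apply Subtype.ext
    rw [Subgroup.coe_pow, Subgroup.coe_one]
    exact pow_twelve_eq_one_h916 _ hg'
  have h1 : κ g ^ 12 = 1 := by rw [← map_pow, h12, map_one]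
  have h2 : κ g ^ (p ^ a) = 1 := by
    rw [← hcard]
    exact pow_card_eq_one'
  have hcop : Nat.Coprime 12 (p ^ a) := by
    apply Nat.Coprime.pow_right
    have h2' : Nat.Coprime 2 p := by
      rw [Nat.coprime_primes Nat.prime_two hp]
      omega
    have h3' : Nat.Coprime 3 p := by
      rw [Nat.coprime_primes Nat.prime_three hp]
      omega
    have : (12 : ℕ) = 2 * 2 * 3 := rfl
    rw [this]
    exact Nat.Coprime.mul_left (Nat.Coprime.mul_left h2' h2') h3'
  have h3 : orderOf (κ g) ∣ Nat.gcd 12 (p ^ a) :=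
    Nat.dvd_gcd (orderOf_dvd_of_pow_eq_one h1) (orderOf_dvd_of_pow_eq_one h2)
  rw [hcop] at h3
  exact orderOf_eq_one_iff.mp (Nat.dvd_one.mp h3)

section LinAlg

variable {𝒪 : Type} [CommRing 𝒪] {X : Type} [AddCommGroup X] [Module 𝒪 X]
  {D E : Type} [Fintype E]

/-- Unique coefficients with respect to a linearly independent family indexed by `D × Fin n`,
re-indexed along a bijection `ε : E → D`. -/
theorem existsUnique_of_linearIndependent_h916 {n : ℕ} (F : D × Fin n → X)
    (hli : LinearIndependent 𝒪 F) (ε : E → D) (hε : Function.Bijective ε) (y : X)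
    (hy : y ∈ Submodule.span 𝒪 (Set.range F)) :
    ∃! c : Fin n → E → 𝒪, y = ∑ i, ∑ e, c i e • F (ε e, i) := by
  classical
  let φ : Fin n × E → D × Fin n := fun z => (ε z.2, z.1)
  have hφ : Function.Bijective φ := by
    constructor
    · rintro ⟨i, e⟩ ⟨i', e'⟩ h
      have h1 : ε e = ε e' := congrArg Prod.fst h
      have h2 : i = i' := congrArg Prod.snd h
      rw [hε.1 h1, h2]
    · rintro ⟨d, i⟩
      obtain ⟨e, rfl⟩ := hε.2 d
      exact ⟨(i, e), rfl⟩
  let G : Fin n × E → X := F ∘ φ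
  have hG : LinearIndependent 𝒪 G := hli.comp φ hφ.1
  have hrange : Set.range G = Set.range F := by
    show Set.range (F ∘ φ) = Set.range F
    rw [Set.range_comp, hφ.2.range_eq, Set.image_univ]
  have hsum : ∀ c : Fin n → E → 𝒪,
      ∑ i, ∑ e, c i e • F (ε e, i) = ∑ z : Fin n × E, c z.1 z.2 • G z := by
    intro c
    rw [Fintype.sum_prod_type]
    rfl
  rw [← hrange] at hy
  obtain ⟨c₀, hc₀⟩ := (Submodule.mem_span_range_iff_exists_fun 𝒪).mp hy
  refine ⟨fun i e => c₀ (i, e), ?_, ?_⟩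
  · show y = ∑ i, ∑ e, c₀ (i, e) • F (ε e, i)
    rw [hsum (fun i e => c₀ (i, e)), ← hc₀]
  · intro c hc
    rw [hsum c, ← hc₀] at hc
    have hzero : ∑ z : Fin n × E, (c z.1 z.2 - c₀ z) • G z = 0 := by
      simp only [sub_smul, Finset.sum_sub_distrib]
      rw [← hc, sub_self]
    have := Fintype.linearIndependent_iff.mp hG (fun z => c z.1 z.2 - c₀ z) hzero
    funext i e
    exact sub_eq_zero.mp (this (i, e))

end LinAlg

end Fermat.Agent.S38.H916
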