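import Fermat.Agent.S38.H916.GIdx
import Fermat.Agent.S38.H916.FreeAlg
import Fermat.Agent.S59.TW.Aut.H31.LocBij
import Fermat.Agent.S59.TW.Aut.H31.NonEis
import Fermat.Agent.S59.Arch.WilesLevel

/-!
# Row HARD, cell HECKE, layer 3, leaf IA-FREE (helper916)

`iaFree_h916 : Fermat.Agent.S38.IA.Hecke.IAFreeStatement` (VERBATIM).

* `free_of_isLocPart_h916` (generic index type `ι`, ANY `Tset`, `Uset`): for `5 ≤ p`, a family
  `qq : ι → ℕ` of distinct primes, `K = KG p N₀ qq = ker (Γ₀(M) → Δ)`, `V` a localisation of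
  `X_K(𝒪)` (`Aut.IsLocPart`) and a pair `(ℓ, c) ∈ Tset`, `ℓ ∤ M`, with `c - (ℓ + 1) ∈ 𝒪ˣ`
  (a non-Eisenstein prime): there is `d` such that for every family `a : E → ∏ (ℤ/qq s)ˣ`
  inducing a bijection `E → Δ`, `V` has an `𝒪`-basis `⟨a e⟩ b_i` (`i < d`, `e ∈ E`).
  Proof: `MFree.H587.free_heckeKer` at `κ = gKappa`, `e` = the projector of `V`, `t = T_ℓ`;
  (Ell) holds because `5 ≤ p` (`ell_of_card_h916`); `T_ℓ - (ℓ + 1)` is bijective on `V`
  (`H31.locPart_TK_sub_bij_h31`).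
* `iaFree_h916`: the case `ι = Fin k ⊕ Fin r`, `qq = Sum.elim pv qv`; the non-Eisenstein prime is
  `H31.exists_nonEis_mem_TsetOf` (Chebotarev + absolute irreducibility of `ρ̄`).
-/

set_option autoImplicit false

open Polynomial IsLocalRing CongruenceSubgroup
open scoped MatrixGroups

namespace Fermat.Agent.S38.H916

open Fermat.Agent.S59.Arch Fermat.Agent.S59.TW.H959 Fermat.Agent.S59.TW
open Fermat.Agent.S59.TW.H653 Fermat.Agent.S59.TW.Aut Fermat.Agent.S59.MFree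
open Fermat.Agent.S38.IA Fermat.Agent.S38.IA.Hecke

section Generic

variable {p : ℕ} [hpF : Fact p.Prime] (N₀ : ℕ) {ι : Type} [Fintype ι] (qq : ι → ℕ)
  {𝒪 : Type} [CommRing 𝒪] [IsDomain 𝒪] [IsDiscreteValuationRing 𝒪] [CharZero 𝒪]

/-- **FREE, generic form.** -/
theorem free_of_isLocPart_h916 (hp5 : 5 ≤ p) (hN₀ : N₀ ≠ 0) (hinj : Function.Injective qq)
    (hprime : ∀ s, (qq s).Prime) (hp𝒪 : ¬ IsUnit (p : 𝒪))
    {Tset Uset : Set (ℕ × 𝒪)} {V : Submodule 𝒪 (Additive (KG p N₀ qq) →+ 𝒪)}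
    (hV : IsLocPart (isMid_KG p N₀ qq) Tset Uset V)
    {ℓ : ℕ} (hℓ : ℓ.Prime) (hℓM : ¬ ℓ ∣ gLevel N₀ qq) {c : 𝒪} (hmem : (ℓ, c) ∈ Tset)
    (hu : IsUnit (c - ((ℓ : 𝒪) + 1))) :
    ∃ d : ℕ, ∀ (E : Type) [Fintype E] (a : E → ∀ s : ι, (ZMod (qq s))ˣ),
      Function.Bijective (fun e => (QuotientGroup.mk (a e) : GDelta p qq)) →
      ∃ b : Fin d → V, ∀ y : V, ∃! c : Fin d → E → 𝒪,
        (y : Additive (KG p N₀ qq) →+ 𝒪) =
          ∑ i, ∑ e, c i e • diamondU (isMid_KG p N₀ qq) (gLift N₀ qq (a e))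
            (b i : Additive (KG p N₀ qq) →+ 𝒪) := by
  classical
  have hp : p.Prime := hpF.out
  have hM : NeZero (gLevel N₀ qq) := neZero_gLevel_h916 N₀ qq hN₀ hprime
  have : ∀ s, NeZero (qq s) := fun s => ⟨(hprime s).ne_zero⟩
  have : Fact ℓ.Prime := ⟨hℓ⟩
  have hred := gRed_surjective_h916 N₀ qq hN₀ hinj hprime
  have hκ := gKappa_surjective_h916 p N₀ qq hred
  letI : Fintype (GDelta p qq) := Fintype.ofFinite _
  have hcardN := card_gDelta_h916 p qq hprime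
  have hcard : ∃ a : ℕ, Fintype.card (GDelta p qq) = p ^ a :=
    ⟨_, by rw [← Nat.card_eq_fintype_card]; exact hcardN⟩
  have hell : ∀ g : Gamma0 (gLevel N₀ qq), IsOfFinOrder g → gKappa p N₀ qq g = 1 :=
    fun g hg => ell_of_card_h916 (gKappa p N₀ qq) hp hp5 hcardN g hg
  have hΓ1 := gKappa_trivial_h916 p N₀ qq
  obtain ⟨e, he, heV, hVe, hT, -, hD, -⟩ := hV.exists_proj
  obtain ⟨hsurj, hinj'⟩ := H31.locPart_TK_sub_bij_h31 hV hℓM hmem hu
  have hTK : ∀ x : Additive (kerSub (gKappa p N₀ qq)) →+ 𝒪,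
      H587.heckeKerLin hℓM (gKappa p N₀ qq) hΓ1 𝒪 x = TK (gLevel N₀ qq) (KG p N₀ qq) ℓ x :=
    fun x => heckeKer_eq_TK hℓM (gKappa p N₀ qq) hΓ1 x
  have hconj : ∀ (g : Gamma0 (gLevel N₀ qq)) (z : Additive (kerSub (gKappa p N₀ qq)) →+ 𝒪),
      conjAct (gKappa p N₀ qq) g z =
        diamondU (isMid_KG p N₀ qq) (dUnit (gLevel N₀ qq) g⁻¹) z := by
    intro g z
    rw [conjAct_eq_diamond (gKappa p N₀ qq) hΓ1 g z, diamond_eq_diamondU]
    rfl
  have hfc := H587.free_heckeKer p (gLevel N₀ qq) ℓ hℓM hM.ne (GDelta p qq) (gKappa p N₀ qq)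
    hκ hcard hell hΓ1 𝒪 hp𝒪 e he
    (fun x => by rw [hTK, hTK]; exact hT ℓ hℓM x)
    (fun g x => by
      have h1 := hconj g x
      have h2 := hconj g (e x)
      have h3 := hD (dUnit (gLevel N₀ qq) g⁻¹) x
      exact (congrArg e h1).trans (h3.trans h2.symm))
    (fun y hy => by
      have hyV : y ∈ V := by rw [← hy]; exact heV y
      obtain ⟨x, hxV, hx⟩ := hsurj y hyV
      exact ⟨x, hVe x hxV, by rw [hTK]; exact hx⟩)
    (fun x hx h0 => by
      have hxV : x ∈ V := by rw [← hx]; exact heV x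
      rw [hTK] at h0
      exact hinj' x hxV h0)
  obtain ⟨⟨n, b, hb, hfree⟩, -, -⟩ := hfc
  refine ⟨n, fun E _ a ha => ?_⟩
  choose s hs using hκ
  obtain ⟨hli, hspan⟩ := hfree s hs
  refine ⟨fun i => ⟨b i, by rw [← hb i]; exact heV _⟩, fun y => ?_⟩
  have hε : Function.Bijective
      (fun e' : E => ((QuotientGroup.mk (a e') : GDelta p qq))⁻¹) :=
    (Equiv.inv (GDelta p qq)).bijective.comp ha
  have key := existsUnique_of_linearIndependent_h916
    (fun z : GDelta p qq × Fin n => conjAct (gKappa p N₀ qq) (s z.1) (b z.2)) hli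
    (fun e' : E => ((QuotientGroup.mk (a e') : GDelta p qq))⁻¹) hε
    (y : Additive (KG p N₀ qq) →+ 𝒪) (hspan _ (hVe _ y.2))
  have hrew : ∀ (e' : E) (i : Fin n),
      conjAct (gKappa p N₀ qq) (s ((QuotientGroup.mk (a e') : GDelta p qq))⁻¹) (b i) =
        diamondU (isMid_KG p N₀ qq) (gLift N₀ qq (a e')) (b i) :=
    fun e' i => (diamondU_gLift_eq_conjAct_h916 p N₀ qq hred (a e') _ (hs _) (b i)).symm
  simp only [hrew] at key
  exact key

end Generic

/-- **IA-FREE**, verbatim. -/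
theorem iaFree_h916 : IAFreeStatement := by
  intro p _ hp5 𝒪 _ _ _ _ _ _ ρbar Smin h hflat Piv hPiv k pv hpv hpvPiv n r qv hq _ PQ α hα V hV
  classical
  have hp : p.Prime := Fact.out
  have hN₀ : wilesLevel p .flat Smin Smin ≠ 0 := wilesLevel_ne_zero hp h.hSmin h.hSmin
  have hpvmem : ∀ i, pv i ∈ Piv := fun i => by
    rw [← hpvPiv]
    exact Finset.mem_image_of_mem pv (Finset.mem_univ i)
  have hprime : ∀ s, (Sum.elim pv qv s).Prime := by
    rintro (i | j)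
    · exact (hPiv (pv i) (hpvmem i)).1
    · exact (hq.2.1 j).1
  have hinj : Function.Injective (Sum.elim pv qv) := by
    rintro (i | j) (i' | j') hh
    · exact congrArg Sum.inl (hpv hh)
    · exfalso
      have h1 : qv j' ∉ Smin ∪ Piv := (hq.2.1 j').2.1
      apply h1
      rw [Finset.mem_union]
      right
      have h2 : pv i = qv j' := hh
      rw [← h2]
      exact hpvmem i
    · exfalso
      have h1 : qv j ∉ Smin ∪ Piv := (hq.2.1 j).2.1
      apply h1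
      rw [Finset.mem_union]
      right
      have h2 : qv j = pv i' := hh
      rw [h2]
      exact hpvmem i'
    · exact congrArg Sum.inr (hq.1 hh)
  have hM : MIA p Smin pv qv ≠ 0 :=
    (neZero_gLevel_h916 (wilesLevel p .flat Smin Smin) (Sum.elim pv qv) hN₀ hprime).ne
  obtain ⟨ℓ, c, hmem, hℓ, hℓS', -, -, hu⟩ :=
    H31.exists_nonEis_mem_TsetOf h PQ 1 one_pos (MIA p Smin pv qv).primeFactors
  have hℓM : ¬ ℓ ∣ MIA p Smin pv qv :=
    fun hd => hℓS' (Nat.mem_primeFactors.mpr ⟨hℓ, hd, hM⟩)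
  have hp𝒪 : ¬ IsUnit (p : 𝒪) := (mem_maximalIdeal _).mp h.hp𝒪
  obtain ⟨d, hd⟩ := free_of_isLocPart_h916 (wilesLevel p .flat Smin Smin) (Sum.elim pv qv)
    hp5 hN₀ hinj hprime hp𝒪 hV hℓ hℓM hmem hu
  refine ⟨d, fun g₁ g₂ hg₁ hg₂ => ?_⟩
  have hg : ∀ s, orderOf (pairU g₁ g₂ s) = Sum.elim pv qv s - 1 := by
    rintro (i | j)
    · exact hg₁ i
    · exact hg₂ j
  let ψ := (Equiv.sumPiEquivProdPi
    (fun s : Fin k ⊕ Fin r => Fin (p ^ padicValNat p (Sum.elim pv qv s - 1)))).symm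
  have hbij : Function.Bijective (fun e : (∀ i : Fin k, Fin (p ^ padicValNat p (pv i - 1))) ×
      (∀ j : Fin r, Fin (p ^ padicValNat p (qv j - 1))) =>
      (QuotientGroup.mk (pairU (fun i => g₁ i ^ (e.1 i : ℕ)) (fun j => g₂ j ^ (e.2 j : ℕ))) :
        GDelta p (Sum.elim pv qv))) := by
    have h1 := (gEps_bijective_h916 p (Sum.elim pv qv) hprime (pairU g₁ g₂) hg).comp ψ.bijective
    have h2 : (gEps_h916 p (Sum.elim pv qv) (pairU g₁ g₂)) ∘ ψ =
        (fun e : (∀ i : Fin k, Fin (p ^ padicValNat p (pv i - 1))) ×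
          (∀ j : Fin r, Fin (p ^ padicValNat p (qv j - 1))) =>
          (QuotientGroup.mk (pairU (fun i => g₁ i ^ (e.1 i : ℕ))
            (fun j => g₂ j ^ (e.2 j : ℕ))) : GDelta p (Sum.elim pv qv))) := by
      funext e
      show (QuotientGroup.mk (fun s => pairU g₁ g₂ s ^ ((ψ e s : Fin _) : ℕ)) :
        GDelta p (Sum.elim pv qv)) = _
      congr 1
      funext s
      rcases s with i | j <;> rfl
    rw [← h2]
    exact h1
  exact hd _ _ hbij

example : Fermat.Agent.S38.IA.Hecke.IAFreeStatement := iaFree_h916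

end Fermat.Agent.S38.H916

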