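import Fermat.Agent.S38.IA.Hecke.Spec3
import Fermat.Agent.S59.TW.H653.Bridge587

/-!
# Row HARD, cell HECKE, layer 3: the level structure of a family of primes indexed by a finite
type — bookkeeping lemmas (helper916)

Generic-index versions (for `gLevel`, `gRed`, `gChi`, `gKappa`, `KG`, `gLift` of
`S38/IA/Hecke/Spec3.lean`) of the `Fin r`-indexed lemmas of layer 3 of the cell TW of row S59
(`S59/TW/Aut/SkelLemmas.lean`, `S59/TW/Aut/H762/{Cor,CorIdx}.lean`):

* `gRed_surjective_h916`            : `(ℤ/M)ˣ → ∏ (ℤ/qq s)ˣ` is onto (Chinese remainder theorem);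
* `gKappa_trivial_h916`, `gKappa_surjective_h916`;
* `diamondU_eq_of_gChi_h916`        : the diamond operator of `KG` depends only on the class in `Δ`;
* `diamondU_gLift_eq_conjAct_h916`  : `⟨a⟩` in the vocabulary of block M-FREE;
* `gEps_bijective_h916`             : `e ↦ class of (g_s ^ e_s)_s`, `∏ Fin (p^{m_s}) → Δ`, is bijective;
* `card_gDelta_h916`                : `#Δ = p ^ (∑ m_s)`.
-/

set_option autoImplicit false
set_option linter.unusedSectionVars false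

open CongruenceSubgroup
open scoped MatrixGroups

namespace Fermat.Agent.S38.H916

open Fermat.Agent.S38.IA.Hecke Fermat.Agent.S59.TW.H653 Fermat.Agent.S59.MFree

section CRT

variable (N₀ : ℕ) {ι : Type} [Fintype ι] (qq : ι → ℕ)

theorem gRed_apply_h916 (u : (ZMod (gLevel N₀ qq))ˣ) (s : ι) :
    gRed N₀ qq u s = ZMod.unitsMap (dvd_gLevel N₀ qq s) u := rfl

theorem neZero_gLevel_h916 (hN₀ : N₀ ≠ 0) (hprime : ∀ s, (qq s).Prime) :
    NeZero (gLevel N₀ qq) :=
  ⟨Nat.mul_ne_zero hN₀ (Finset.prod_ne_zero_iff.mpr fun s _ => (hprime s).ne_zero)⟩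

/-- `(ℤ/M)ˣ → ∏ (ℤ/qq s)ˣ` is onto. -/
theorem gRed_surjective_h916 (hN₀ : N₀ ≠ 0) (hinj : Function.Injective qq)
    (hprime : ∀ s, (qq s).Prime) : Function.Surjective (gRed N₀ qq) := by
  intro a
  have hcop : Pairwise (Function.onFun Nat.Coprime qq) := by
    intro i j hij
    exact (Nat.coprime_primes (hprime i) (hprime j)).mpr fun h => hij (hinj h)
  have hM : NeZero (gLevel N₀ qq) := neZero_gLevel_h916 N₀ qq hN₀ hprime
  have hPM : (∏ s, qq s) ∣ gLevel N₀ qq := Dvd.intro_left _ rfl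
  set e := ZMod.prodEquivPi qq hcop with he
  set x : ZMod (∏ s, qq s) := e.symm (fun s => ((a s : (ZMod (qq s))ˣ) : ZMod (qq s))) with hx
  set y : ZMod (∏ s, qq s) := e.symm (fun s => ((a s)⁻¹ : (ZMod (qq s))ˣ)) with hy
  have hxy : x * y = 1 := by
    rw [hx, hy, ← map_mul]
    have : ((fun s => ((a s : (ZMod (qq s))ˣ) : ZMod (qq s))) *
        fun s => (((a s)⁻¹ : (ZMod (qq s))ˣ) : ZMod (qq s))) = 1 := by
      funext s
      simp
    rw [this, map_one]
  obtain ⟨u, hu⟩ := ZMod.unitsMap_surjective hPM (Units.mkOfMulEqOne x y hxy)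
  refine ⟨u, ?_⟩
  funext s
  apply Units.ext
  rw [gRed_apply_h916]
  have h1 : ZMod.unitsMap (dvd_gLevel N₀ qq s) u =
      ZMod.unitsMap (Finset.dvd_prod_of_mem qq (Finset.mem_univ s)) (ZMod.unitsMap hPM u) := by
    rw [← MonoidHom.comp_apply, ZMod.unitsMap_comp]
  rw [h1, hu]
  show ZMod.castHom (Finset.dvd_prod_of_mem qq (Finset.mem_univ s)) (ZMod (qq s)) x = _
  rw [← ZMod.prodEquivPi_apply qq hcop x s, ← he, hx, RingEquiv.apply_symm_apply]

end CRT

section Kappa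

variable (p N₀ : ℕ) {ι : Type} [Fintype ι] (qq : ι → ℕ)

theorem gKappa_trivial_h916 (γ : Gamma0 (gLevel N₀ qq))
    (h : ((((γ : SL(2, ℤ)) 1 1 : ℤ)) : ZMod (gLevel N₀ qq)) = 1) : gKappa p N₀ qq γ = 1 := by
  have h1 : dUnit (gLevel N₀ qq) γ = 1 := by
    apply Units.ext
    rw [coe_dUnit, h, Units.val_one]
  unfold gKappa
  rw [MonoidHom.comp_apply, h1, map_one]

theorem gKappa_apply_h916 (γ : Gamma0 (gLevel N₀ qq)) :
    gKappa p N₀ qq γ = gChi p N₀ qq (dUnit (gLevel N₀ qq) γ) := rfl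

theorem gChi_apply_h916 (u : (ZMod (gLevel N₀ qq))ˣ) :
    gChi p N₀ qq u = QuotientGroup.mk (gRed N₀ qq u) := rfl

theorem gKappa_surjective_h916 [NeZero (gLevel N₀ qq)]
    (hsurj : Function.Surjective (gRed N₀ qq)) : Function.Surjective (gKappa p N₀ qq) := by
  intro d
  obtain ⟨a, rfl⟩ := QuotientGroup.mk_surjective d
  obtain ⟨u, rfl⟩ := hsurj a
  obtain ⟨γ, rfl⟩ := dUnit_surjective u
  exact ⟨γ, rfl⟩

variable {A : Type} [AddCommGroup A]

theorem diamondU_of_gChi_h916 [NeZero (gLevel N₀ qq)] {u : (ZMod (gLevel N₀ qq))ˣ}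
    (hu : gChi p N₀ qq u = 1) (x : Additive (KG p N₀ qq) →+ A) :
    diamondU (isMid_KG p N₀ qq) u x = x := by
  have h := diamondHom_GammaH (A := A) (M := gLevel N₀ qq) (H := (gChi p N₀ qq).ker)
    (u := u) (MonoidHom.mem_ker.mpr hu)
  have h2 := congrArg (fun f : AddMonoid.End (Additive (GammaH (gLevel N₀ qq)
    (gChi p N₀ qq).ker) →+ A) => f x) h
  exact h2

/-- The diamond operator of `KG` depends only on the class in `Δ`. -/
theorem diamondU_eq_of_gChi_h916 [NeZero (gLevel N₀ qq)] {u u' : (ZMod (gLevel N₀ qq))ˣ}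
    (hu : gChi p N₀ qq u = gChi p N₀ qq u') (x : Additive (KG p N₀ qq) →+ A) :
    diamondU (isMid_KG p N₀ qq) u x = diamondU (isMid_KG p N₀ qq) u' x := by
  have h1 : u = u' * (u'⁻¹ * u) := by group
  have h2 : gChi p N₀ qq (u'⁻¹ * u) = 1 := by
    rw [map_mul, map_inv, hu, inv_mul_cancel]
  rw [h1, diamondU_mul, diamondU_of_gChi_h916 p N₀ qq h2]

/-- The diamond operator `⟨a⟩` of `KG` in the vocabulary of block M-FREE. -/
theorem diamondU_gLift_eq_conjAct_h916 [NeZero (gLevel N₀ qq)]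
    (hsurj : Function.Surjective (gRed N₀ qq))
    (a : ∀ s : ι, (ZMod (qq s))ˣ) (γ : Gamma0 (gLevel N₀ qq))
    (hγ : gKappa p N₀ qq γ = (QuotientGroup.mk a)⁻¹)
    (x : Additive (kerSub (gKappa p N₀ qq)) →+ A) :
    diamondU (isMid_KG p N₀ qq) (gLift N₀ qq a) x = conjAct (gKappa p N₀ qq) γ x := by
  rw [conjAct_eq_diamond (gKappa p N₀ qq) (gKappa_trivial_h916 p N₀ qq) γ x]
  rw [diamond_eq_diamondU]
  apply diamondU_eq_of_gChi_h916
  have h1 : gChi p N₀ qq (gLift N₀ qq a) = QuotientGroup.mk a := by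
    rw [gChi_apply_h916, gRed_gLift N₀ qq (hsurj a)]
  have h2 : gChi p N₀ qq (dUnit (gLevel N₀ qq) γ⁻¹) = QuotientGroup.mk a := by
    rw [← gKappa_apply_h916, map_inv, hγ]
    exact inv_inv (QuotientGroup.mk a : GDelta p qq)
  exact h1.trans h2.symm

end Kappa

section Idx

variable (p : ℕ) {ι : Type} [Fintype ι] (qq : ι → ℕ)

/-- The index map `e ↦ class of (g_s ^ e_s)_s`. -/
def gEps_h916 (g : ∀ s : ι, (ZMod (qq s))ˣ)
    (e : ∀ s : ι, Fin (p ^ padicValNat p (qq s - 1))) : GDelta p qq :=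
  QuotientGroup.mk (fun s => g s ^ (e s : ℕ))

theorem mem_gPowSub_iff_h916 (a : ∀ s : ι, (ZMod (qq s))ˣ) :
    a ∈ gPowSub p qq ↔ ∀ s, ∃ u : (ZMod (qq s))ˣ, u ^ (p ^ padicValNat p (qq s - 1)) = a s := by
  unfold gPowSub
  rw [Subgroup.mem_pi]
  constructor
  · intro h s
    obtain ⟨u, hu⟩ := h s (Set.mem_univ s)
    exact ⟨u, hu⟩
  · intro h s _
    obtain ⟨u, hu⟩ := h s
    exact ⟨u, hu⟩

/-- A primitive root generates. -/
theorem exists_pow_eq_of_orderOf_h916 {q : ℕ} (hq : q.Prime) {g : (ZMod q)ˣ}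
    (hg : orderOf g = q - 1) (u : (ZMod q)ˣ) : ∃ k : ℕ, g ^ k = u := by
  have : Fact q.Prime := ⟨hq⟩
  have hcard : Nat.card (ZMod q)ˣ = q - 1 := by
    rw [Nat.card_eq_fintype_card, ZMod.card_units]
  have h1 : Subgroup.zpowers g = ⊤ := by
    apply (Subgroup.card_eq_iff_eq_top _).mp
    rw [Nat.card_zpowers, hg, hcard]
  have h2 : u ∈ Subgroup.zpowers g := by
    rw [h1]
    exact Subgroup.mem_top u
  rw [← mem_powers_iff_mem_zpowers] at h2
  exact (Submonoid.mem_powers_iff u g).mp h2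

theorem gEps_injective_h916 [Fact p.Prime] (hprime : ∀ s, (qq s).Prime)
    (g : ∀ s : ι, (ZMod (qq s))ˣ) (hg : ∀ s, orderOf (g s) = qq s - 1) :
    Function.Injective (gEps_h916 p qq g) := by
  intro e e' h
  unfold gEps_h916 at h
  rw [QuotientGroup.eq, mem_gPowSub_iff_h916] at h
  funext j
  obtain ⟨u, hu⟩ := h j
  obtain ⟨k, rfl⟩ := exists_pow_eq_of_orderOf_h916 (hprime j) (hg j) u
  have h1 : g j ^ (k * p ^ padicValNat p (qq j - 1) + (e j : ℕ)) = g j ^ (e' j : ℕ) := by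
    rw [pow_add, pow_mul, hu]
    simp
  rw [pow_eq_pow_iff_modEq, hg j] at h1
  have hdvd : p ^ padicValNat p (qq j - 1) ∣ qq j - 1 := pow_padicValNat_dvd
  have h2 : (k * p ^ padicValNat p (qq j - 1) + (e j : ℕ)) ≡ (e' j : ℕ)
      [MOD p ^ padicValNat p (qq j - 1)] := h1.of_dvd hdvd
  have h3 : ((e j : ℕ)) ≡ (e' j : ℕ) [MOD p ^ padicValNat p (qq j - 1)] := by
    have h4 : (k * p ^ padicValNat p (qq j - 1) + (e j : ℕ)) ≡ (e j : ℕ)
        [MOD p ^ padicValNat p (qq j - 1)] := by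
      unfold Nat.ModEq
      rw [Nat.mul_add_mod_of_lt (e j).2]
      exact (Nat.mod_eq_of_lt (e j).2).symm
    exact h4.symm.trans h2
  apply Fin.ext
  unfold Nat.ModEq at h3
  rw [Nat.mod_eq_of_lt (e j).2, Nat.mod_eq_of_lt (e' j).2] at h3
  exact h3

theorem gEps_surjective_h916 [hp : Fact p.Prime] (hprime : ∀ s, (qq s).Prime)
    (g : ∀ s : ι, (ZMod (qq s))ˣ) (hg : ∀ s, orderOf (g s) = qq s - 1) :
    Function.Surjective (gEps_h916 p qq g) := by
  intro d
  obtain ⟨a, rfl⟩ := QuotientGroup.mk_surjective d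
  have hk : ∀ j, ∃ k : ℕ, g j ^ k = a j := fun j =>
    exists_pow_eq_of_orderOf_h916 (hprime j) (hg j) (a j)
  choose k hk using hk
  have hpos : ∀ j, 0 < p ^ padicValNat p (qq j - 1) := fun j => pow_pos hp.out.pos _
  refine ⟨fun j => ⟨k j % p ^ padicValNat p (qq j - 1), Nat.mod_lt _ (hpos j)⟩, ?_⟩
  unfold gEps_h916
  rw [QuotientGroup.eq, mem_gPowSub_iff_h916]
  intro j
  refine ⟨g j ^ (k j / p ^ padicValNat p (qq j - 1)), ?_⟩
  show _ = ((fun j => g j ^ (k j % p ^ padicValNat p (qq j - 1)))⁻¹ * a) j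
  rw [Pi.mul_apply, Pi.inv_apply, ← hk j, ← pow_mul, eq_inv_mul_iff_mul_eq, ← pow_add]
  congr 1
  rw [mul_comm]
  exact Nat.mod_add_div _ _

theorem gEps_bijective_h916 [Fact p.Prime] (hprime : ∀ s, (qq s).Prime)
    (g : ∀ s : ι, (ZMod (qq s))ˣ) (hg : ∀ s, orderOf (g s) = qq s - 1) :
    Function.Bijective (gEps_h916 p qq g) :=
  ⟨gEps_injective_h916 p qq hprime g hg, gEps_surjective_h916 p qq hprime g hg⟩

/-- Primitive roots exist. -/
theorem exists_primitive_roots_h916 (hprime : ∀ s, (qq s).Prime) :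
    ∃ g : ∀ s : ι, (ZMod (qq s))ˣ, ∀ s, orderOf (g s) = qq s - 1 := by
  have h : ∀ j, ∃ g : (ZMod (qq j))ˣ, orderOf g = qq j - 1 := by
    intro j
    have : Fact (qq j).Prime := ⟨hprime j⟩
    obtain ⟨g, hg⟩ := IsCyclic.exists_generator (α := (ZMod (qq j))ˣ)
    refine ⟨g, ?_⟩
    rw [orderOf_eq_card_of_forall_mem_zpowers hg, Nat.card_eq_fintype_card, ZMod.card_units]
  choose g hg using h
  exact ⟨g, hg⟩

/-- `Δ` is a finite `p`-group: `#Δ = p ^ (∑ m_s)`. -/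
theorem card_gDelta_h916 [Fact p.Prime] (hprime : ∀ s, (qq s).Prime) :
    Nat.card (GDelta p qq) = p ^ ∑ s, padicValNat p (qq s - 1) := by
  classical
  obtain ⟨g, hg⟩ := exists_primitive_roots_h916 qq hprime
  have hb := gEps_bijective_h916 p qq hprime g hg
  rw [← Nat.card_congr (Equiv.ofBijective _ hb), Nat.card_eq_fintype_card, Fintype.card_pi]
  simp only [Fintype.card_fin]
  exact Finset.prod_pow_eq_pow_sum _ _ _

end Idx

end Fermat.Agent.S38.H916
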